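/-
S18 / helper82 — generic package D-LOCAL (route independent, Mathlib only).

Normality criterion from a discriminant bound over a PID:
if `B` is a domain, free of finite rank over a PID `R` with basis `b`, and for every prime `ϖ` of `R`
there are `a` elements of `B`, nilpotent modulo `ϖ` and linearly independent modulo `ϖ`, such that
`ϖ ^ (a + 1)` does not divide `discr R b`, then `B` is integrally closed.
-/
import Mathlib

set_option autoImplicit false
set_option linter.unusedSectionVars false
set_option linter.style.haveILetI false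

namespace Fermat.Agent.S18.H82

open Matrix

section MatrixLemmas

variable {R : Type*} [CommRing R] {ι : Type*} [Fintype ι] [DecidableEq ι]

/-- If the columns indexed by `J` are divisible by `ϖ`, then `ϖ ^ #J ∣ det`. -/
theorem pow_card_dvd_det_of_cols (M : Matrix ι ι R) (ϖ : R) (J : Finset ι)
    (h : ∀ j ∈ J, ∀ i, ϖ ∣ M i j) : ϖ ^ J.card ∣ M.det := by
  classical
  choose! q hq using h
  set M' : Matrix ι ι R := Matrix.of fun i j => if j ∈ J then q j i else M i j with hM'
  set d : ι → R := fun j => if j ∈ J then ϖ else 1 with hd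
  have hM : M = M' * Matrix.diagonal d := by
    ext i j
    rw [Matrix.mul_diagonal]
    by_cases hj : j ∈ J
    · simp only [hM', hd, Matrix.of_apply, if_pos hj]
      rw [hq j hj i, mul_comm]
    · simp only [hM', hd, Matrix.of_apply, if_neg hj, mul_one]
  have hdet : (Matrix.diagonal d).det = ϖ ^ J.card := by
    rw [Matrix.det_diagonal]
    simp only [hd]
    rw [Finset.prod_ite_mem, Finset.univ_inter, Finset.prod_const]
  rw [hM, Matrix.det_mul, hdet]
  exact Dvd.intro_left _ rfl

variable {κ : Type*} [Field κ] (φ : R →+* κ)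

/-- If the reduction of `M` kills a subspace `U`, then `ϖ ^ dim U ∣ det M`. -/
theorem pow_finrank_dvd_det [IsDomain R] (hφ : Function.Surjective φ) {ϖ : R} (hϖ : Prime ϖ)
    (hker : ∀ x, φ x = 0 ↔ ϖ ∣ x) (M : Matrix ι ι R) (U : Submodule κ (ι → κ))
    (hU : ∀ u ∈ U, (M.map φ) *ᵥ u = 0) : ϖ ^ (Module.finrank κ U) ∣ M.det := by
  classical
  obtain ⟨U', hU'⟩ := Submodule.exists_isCompl U
  set r := Module.finrank κ U with hr
  set r' := Module.finrank κ U' with hr'
  let bU : Module.Basis (Fin r) κ U := Module.finBasis κ U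
  let bU' : Module.Basis (Fin r') κ U' := Module.finBasis κ U'
  let e : (U × U') ≃ₗ[κ] (ι → κ) := Submodule.prodEquivOfIsCompl U U' hU'
  let bb : Module.Basis (Fin r ⊕ Fin r') κ (ι → κ) := (bU.prod bU').map e
  have hcard : Fintype.card (Fin r ⊕ Fin r') = Fintype.card ι := by
    rw [← Module.finrank_eq_card_basis bb, Module.finrank_fintype_fun_eq_card]
  let σ : (Fin r ⊕ Fin r') ≃ ι := Fintype.equivOfCardEq hcard
  let bι : Module.Basis ι κ (ι → κ) := bb.reindex σ
  set Ubar : Matrix ι ι κ := (Pi.basisFun κ ι).toMatrix bι with hUbar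
  have hUbar_det : Ubar.det ≠ 0 := by
    apply Matrix.det_ne_zero_of_right_inverse (B := bι.toMatrix (Pi.basisFun κ ι))
    exact Module.Basis.toMatrix_mul_toMatrix_flip _ _
  set UR : Matrix ι ι R := Matrix.of fun i j => Function.surjInv hφ (Ubar i j) with hUR
  have hURmap : UR.map φ = Ubar := by
    ext i j
    simp only [hUR, Matrix.map_apply, Matrix.of_apply, Function.surjInv_eq hφ]
  set J : Finset ι := Finset.univ.image (fun k : Fin r => σ (Sum.inl k)) with hJ
  have hJcard : J.card = r := by
    rw [hJ, Finset.card_image_of_injective _ (fun a b hab => Sum.inl_injective (σ.injective hab))]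
    simp
  have hcols : ∀ j ∈ J, ∀ i, ϖ ∣ (M * UR) i j := by
    intro j hj i
    rw [hJ, Finset.mem_image] at hj
    obtain ⟨k, -, rfl⟩ := hj
    rw [← hker]
    have h1 : φ ((M * UR) i (σ (Sum.inl k))) = ((M.map φ) * Ubar) i (σ (Sum.inl k)) := by
      rw [← hURmap, ← Matrix.map_mul]
      rfl
    rw [h1]
    have h2 : (fun i' => Ubar i' (σ (Sum.inl k))) = ((bU k : U) : ι → κ) := by
      funext i'
      simp only [hUbar, Module.Basis.toMatrix_apply, Pi.basisFun_repr]
      show (bb.reindex σ) (σ (Sum.inl k)) i' = _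
      rw [Module.Basis.reindex_apply, Equiv.symm_apply_apply]
      show (e ((bU.prod bU') (Sum.inl k))) i' = _
      rw [Module.Basis.prod_apply]
      simp [e, Submodule.coe_prodEquivOfIsCompl']
    have h3 := hU _ (bU k).2
    have h4 : ((M.map φ) * Ubar) i (σ (Sum.inl k)) = ((M.map φ) *ᵥ ((bU k : U) : ι → κ)) i := by
      rw [← h2]
      rfl
    rw [h4, h3]
    rfl
  have hdvd := pow_card_dvd_det_of_cols (M * UR) ϖ J hcols
  rw [hJcard, Matrix.det_mul] at hdvd
  refine hϖ.pow_dvd_of_dvd_mul_right r ?_ hdvd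
  rw [← hker, RingHom.map_det]
  have : φ.mapMatrix UR = Ubar := hURmap
  rw [this]
  exact hUbar_det

end MatrixLemmas

section Trace

variable {R : Type*} [CommRing R] {κ : Type*} [Field κ] (φ : R →+* κ)
variable {B : Type*} [CommRing B] [Algebra R B]
variable {ι : Type*} [Fintype ι] [DecidableEq ι]

/-- The trace of an element that is nilpotent modulo `ϖ` is divisible by `ϖ`. -/
theorem dvd_trace_of_mem_radical {ϖ : R} (hker : ∀ x, φ x = 0 ↔ ϖ ∣ x) (b : Module.Basis ι R B)
    {x : B} (hx : x ∈ (Ideal.span {algebraMap R B ϖ}).radical) : ϖ ∣ Algebra.trace R B x := by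
  obtain ⟨k, hk⟩ := hx
  rw [Ideal.mem_span_singleton] at hk
  obtain ⟨z, hz⟩ := hk
  rw [← hker, Algebra.trace_eq_matrix_trace b]
  set L := Algebra.leftMulMatrix b x with hL
  have hLk : (L.map φ) ^ k = 0 := by
    have h1 : L ^ k = ϖ • Algebra.leftMulMatrix b z := by
      rw [hL, ← map_pow, hz, ← Algebra.smul_def, map_smul]
    have h2 : (L.map φ) ^ k = (L ^ k).map φ := by
      rw [← RingHom.mapMatrix_apply, ← RingHom.mapMatrix_apply, map_pow]
    rw [h2, h1]
    ext i j
    simp [(hker ϖ).2 dvd_rfl]
  have hnil : IsNilpotent (L.map φ) := ⟨k, hLk⟩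
  have htr := Matrix.isNilpotent_trace_of_isNilpotent hnil
  have : φ L.trace = (L.map φ).trace := by
    rw [Matrix.trace, Matrix.trace, map_sum]
    rfl
  rw [this]
  exact htr.eq_zero

/-- Coordinates modulo `ϖ`. -/
noncomputable def redCoord (b : Module.Basis ι R B) (x : B) : ι → κ := fun j => φ (b.repr x j)

/-- If `U` is a subspace of coordinate vectors of elements nilpotent modulo `ϖ`, then
`ϖ ^ dim U ∣ discr`. -/
theorem pow_finrank_dvd_discr [IsDomain R] (hφ : Function.Surjective φ) {ϖ : R} (hϖ : Prime ϖ)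
    (hker : ∀ x, φ x = 0 ↔ ϖ ∣ x) (b : Module.Basis ι R B) (U : Submodule κ (ι → κ))
    (hU : ∀ u ∈ U, ∃ x ∈ (Ideal.span {algebraMap R B ϖ}).radical, redCoord φ b x = u) :
    ϖ ^ (Module.finrank κ U) ∣ Algebra.discr R b := by
  rw [Algebra.discr_def]
  refine pow_finrank_dvd_det φ hφ hϖ hker _ U ?_
  intro u hu
  obtain ⟨x, hx, rfl⟩ := hU u hu
  funext i
  have hx' : b i * x = ∑ j, b.repr x j • (b i * b j) := by
    conv_lhs => rw [← b.sum_repr x]
    rw [Finset.mul_sum]
    exact Finset.sum_congr rfl fun j _ => by rw [mul_smul_comm]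
  have h1 : ((Algebra.traceMatrix R b).map φ *ᵥ redCoord φ b x) i
      = φ (Algebra.trace R B (b i * x)) := by
    rw [hx', map_sum, map_sum]
    simp only [Matrix.mulVec, dotProduct, Matrix.map_apply, Algebra.traceMatrix_apply,
      Algebra.traceForm_apply, redCoord, map_smul, smul_eq_mul, map_mul]
    exact Finset.sum_congr rfl fun j _ => mul_comm _ _
  rw [h1, Pi.zero_apply, hker]
  exact dvd_trace_of_mem_radical φ hker b (Ideal.mul_mem_left _ _ hx)

theorem redCoord_add (b : Module.Basis ι R B) (x y : B) :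
    redCoord φ b (x + y) = redCoord φ b x + redCoord φ b y := by
  funext j
  simp [redCoord]

theorem redCoord_smul (b : Module.Basis ι R B) (r : R) (x : B) :
    redCoord φ b (r • x) = φ r • redCoord φ b x := by
  funext j
  simp [redCoord]

theorem redCoord_zero (b : Module.Basis ι R B) : redCoord φ b (0 : B) = 0 := by
  funext j
  simp [redCoord]

theorem redCoord_sum (b : Module.Basis ι R B) {α : Type*} (s : Finset α) (l : α → R) (w : α → B) :
    redCoord φ b (∑ i ∈ s, l i • w i) = ∑ i ∈ s, φ (l i) • redCoord φ b (w i) := by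
  classical
  induction s using Finset.induction_on with
  | empty => simp [redCoord_zero]
  | insert i s hi ih => rw [Finset.sum_insert hi, Finset.sum_insert hi, redCoord_add, redCoord_smul, ih]

/-- `redCoord x = 0` iff `ϖ ∣ x`. -/
theorem redCoord_eq_zero_iff {ϖ : R} (hker : ∀ x, φ x = 0 ↔ ϖ ∣ x) (b : Module.Basis ι R B) (x : B) :
    redCoord φ b x = 0 ↔ algebraMap R B ϖ ∣ x := by
  constructor
  · intro h
    have h' : ∀ j, ϖ ∣ b.repr x j := fun j => (hker _).1 (congrFun h j)
    choose q hq using h'
    refine ⟨∑ j, q j • b j, ?_⟩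
    conv_lhs => rw [← b.sum_repr x]
    rw [Finset.mul_sum]
    refine Finset.sum_congr rfl fun j _ => ?_
    rw [hq j, mul_smul, Algebra.smul_def]
  · rintro ⟨z, rfl⟩
    funext j
    simp only [redCoord, Pi.zero_apply]
    rw [hker, ← Algebra.smul_def, map_smul]
    exact ⟨b.repr z j, by simp⟩

end Trace

section Core

variable {R : Type*} [CommRing R] [IsDomain R] {κ : Type*} [Field κ] (φ : R →+* κ)
variable {B B' : Type*} [CommRing B] [CommRing B'] [Algebra R B] [Algebra R B']
variable {ι : Type*} [Fintype ι] [DecidableEq ι]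

/-- Trace is insensitive to passing to a finite-index overring. -/
theorem trace_eq_of_injective (f : B →ₐ[R] B') (hf : Function.Injective f)
    (b : Module.Basis ι R B) (b' : Module.Basis ι R B') (x : B) :
    Algebra.trace R B' (f x) = Algebra.trace R B x := by
  set P : Matrix ι ι R := LinearMap.toMatrix b b' f.toLinearMap with hP
  have hPdet : P.det ≠ 0 := by
    intro h0
    obtain ⟨w, hw0, hw⟩ := Matrix.exists_mulVec_eq_zero_iff.mpr h0
    apply hw0
    have hx0 : (b.repr (b.equivFun.symm w) : ι → R) = w := by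
      rw [← Module.Basis.equivFun_apply, LinearEquiv.apply_symm_apply]
    have h1 : b'.equivFun (f (b.equivFun.symm w)) = 0 := by
      rw [Module.Basis.equivFun_apply]
      have := LinearMap.toMatrix_mulVec_repr b b' f.toLinearMap (b.equivFun.symm w)
      rw [hx0, ← hP, hw] at this
      exact this.symm
    have h4 : f (b.equivFun.symm w) = 0 := (LinearEquiv.map_eq_zero_iff _).1 h1
    have h5 : b.equivFun.symm w = 0 := hf (by rw [h4, map_zero])
    exact (LinearEquiv.map_eq_zero_iff b.equivFun.symm).1 h5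
  have hcomm : Algebra.leftMulMatrix b' (f x) * P = P * Algebra.leftMulMatrix b x := by
    rw [Algebra.leftMulMatrix_apply, Algebra.leftMulMatrix_apply, hP, ← LinearMap.toMatrix_comp,
      ← LinearMap.toMatrix_comp]
    congr 1
    ext z
    simp
  rw [Algebra.trace_eq_matrix_trace b', Algebra.trace_eq_matrix_trace b]
  have h6 : P.det • (Algebra.leftMulMatrix b' (f x)).trace = P.det • (Algebra.leftMulMatrix b x).trace := by
    have h7 : Algebra.leftMulMatrix b' (f x) * (P * P.adjugate)
        = P * Algebra.leftMulMatrix b x * P.adjugate := by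
      rw [← Matrix.mul_assoc, hcomm]
    rw [Matrix.mul_adjugate] at h7
    have h8 := congrArg Matrix.trace h7
    rw [Matrix.mul_smul, Matrix.mul_one, Matrix.trace_smul, Matrix.trace_mul_comm, ← Matrix.mul_assoc,
      Matrix.adjugate_mul, Matrix.smul_mul, Matrix.one_mul, Matrix.trace_smul] at h8
    exact h8
  exact mul_left_cancel₀ hPdet (by simpa [smul_eq_mul] using h6)

/-- The discriminant of `B` is the square of the index times the discriminant of an overring. -/
theorem discr_eq_det_sq_mul (f : B →ₐ[R] B') (hf : Function.Injective f)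
    (b : Module.Basis ι R B) (b' : Module.Basis ι R B') :
    Algebra.discr R b = (LinearMap.toMatrix b b' f.toLinearMap).det ^ 2 * Algebra.discr R b' := by
  set P : Matrix ι ι R := LinearMap.toMatrix b b' f.toLinearMap with hP
  have h1 : (⇑b' ᵥ* P.map (algebraMap R B')) = fun j => f (b j) := by
    funext j
    simp only [Matrix.vecMul, dotProduct, Matrix.map_apply]
    have h2 : f (b j) = ∑ i, b'.repr (f (b j)) i • b' i := (b'.sum_repr (f (b j))).symm
    rw [h2]
    refine Finset.sum_congr rfl fun i _ => ?_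
    rw [hP, LinearMap.toMatrix_apply, Algebra.smul_def, mul_comm]
    rfl
  rw [← Algebra.discr_of_matrix_vecMul, h1, Algebra.discr_def, Algebra.discr_def]
  congr 1
  ext i j
  simp only [Algebra.traceMatrix_apply, Algebra.traceForm_apply]
  rw [← map_mul f, trace_eq_of_injective f hf b b']

/-- Reduced coordinates of `f x` are obtained from those of `x` by the reduced index matrix. -/
theorem redCoord_map (f : B →ₐ[R] B') (b : Module.Basis ι R B) (b' : Module.Basis ι R B') (x : B) :
    redCoord φ b' (f x) = ((LinearMap.toMatrix b b' f.toLinearMap).map φ) *ᵥ redCoord φ b x := by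
  have h := LinearMap.toMatrix_mulVec_repr b b' f.toLinearMap x
  funext i
  have hi := congrFun h i
  have : (b'.repr (f x)) i = (LinearMap.toMatrix b b' f.toLinearMap *ᵥ ⇑(b.repr x)) i := hi.symm
  show φ ((b'.repr (f x)) i) = _
  rw [this]
  simp only [Matrix.mulVec, dotProduct, map_sum, map_mul, Matrix.map_apply, redCoord]

/-- **Core inequality.** If `B ⊂ B'` are orders with `B ≠ B'` at `ϖ` (witness: `ϖ • y = f c0` with
`c0 ∉ ϖ B`), and `B` has `a` elements nilpotent mod `ϖ` and independent mod `ϖ`, then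
`ϖ ^ (a + 1) ∣ discr B`. -/
theorem pow_succ_dvd_discr_of_overring (hφ : Function.Surjective φ) {ϖ : R} (hϖ : Prime ϖ)
    (hker : ∀ x, φ x = 0 ↔ ϖ ∣ x) (f : B →ₐ[R] B') (hf : Function.Injective f)
    (b : Module.Basis ι R B) (b' : Module.Basis ι R B')
    {a : ℕ} (v : Fin a → B) (hnil : ∀ i, v i ∈ (Ideal.span {algebraMap R B ϖ}).radical)
    (hind : LinearIndependent κ (fun i => redCoord φ b (v i)))
    (c0 : B) (hc0 : ¬ algebraMap R B ϖ ∣ c0) (y : B') (hy : f c0 = ϖ • y) :
    ϖ ^ (a + 1) ∣ Algebra.discr R b := by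
  classical
  set P : Matrix ι ι R := LinearMap.toMatrix b b' f.toLinearMap with hP
  set Pl : (ι → κ) →ₗ[κ] (ι → κ) := Matrix.mulVecLin (P.map φ) with hPl
  set c := Module.finrank κ (LinearMap.ker Pl) with hc
  -- (6) `ϖ ^ c ∣ det P`
  have hdetP : ϖ ^ c ∣ P.det := by
    refine pow_finrank_dvd_det φ hφ hϖ hker P (LinearMap.ker Pl) ?_
    intro u hu
    have := LinearMap.mem_ker.1 hu
    simpa [hPl, Matrix.mulVecLin_apply] using this
  -- `c ≥ 1`
  have hc1 : 1 ≤ c := by
    have hu0 : redCoord φ b c0 ≠ 0 := fun h => hc0 ((redCoord_eq_zero_iff φ hker b c0).1 h)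
    have hu0ker : redCoord φ b c0 ∈ LinearMap.ker Pl := by
      rw [LinearMap.mem_ker, hPl, Matrix.mulVecLin_apply, ← redCoord_map φ f b b' c0, hy,
        redCoord_smul, (hker ϖ).2 dvd_rfl, zero_smul]
    have : 0 < Module.finrank κ (LinearMap.ker Pl) :=
      Module.finrank_pos_iff_exists_ne_zero.2 ⟨⟨_, hu0ker⟩, fun h => hu0 (congrArg Subtype.val h)⟩
    exact this
  -- (7) the span of the nilpotent family and its image
  set V : Submodule κ (ι → κ) := Submodule.span κ (Set.range fun i => redCoord φ b (v i)) with hV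
  have hVrank : Module.finrank κ V = a := by
    rw [hV, finrank_span_eq_card hind, Fintype.card_fin]
  set U : Submodule κ (ι → κ) := V.map Pl with hUdef
  have hUrank : a ≤ Module.finrank κ U + c := by
    set g : V →ₗ[κ] (ι → κ) := Pl.domRestrict V with hg
    have h1 := LinearMap.finrank_range_add_finrank_ker g
    have h2 : LinearMap.range g = U := by
      rw [hg, LinearMap.range_domRestrict]
    have h3 : Module.finrank κ (LinearMap.ker g) ≤ c := by
      let h : LinearMap.ker g →ₗ[κ] LinearMap.ker Pl :=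
        LinearMap.codRestrict _ ((V.subtype).comp (LinearMap.ker g).subtype) (fun x => by
          have h := LinearMap.mem_ker.1 x.2
          rw [LinearMap.mem_ker]
          exact h)
      refine LinearMap.finrank_le_finrank_of_injective (f := h) ?_
      intro x x' hxx'
      have := congrArg Subtype.val hxx'
      simp only [h, LinearMap.codRestrict_apply, LinearMap.coe_comp, Submodule.coe_subtype,
        Function.comp_apply] at this
      exact Subtype.ext (Subtype.ext this)
    rw [h2, hVrank] at h1
    omega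
  -- (8) elements of `U` are reduced coordinates of nilpotents of `B'`
  have hU : ∀ u ∈ U, ∃ x ∈ (Ideal.span {algebraMap R B' ϖ}).radical, redCoord φ b' x = u := by
    intro u hu
    rw [hUdef, Submodule.mem_map] at hu
    obtain ⟨w, hw, rfl⟩ := hu
    rw [hV, Submodule.mem_span_range_iff_exists_fun] at hw
    obtain ⟨lam, rfl⟩ := hw
    choose l hl using fun i => hφ (lam i)
    set x : B := ∑ i, l i • v i with hx
    have hxrad : x ∈ (Ideal.span {algebraMap R B ϖ}).radical := by
      refine Ideal.sum_mem _ fun i _ => ?_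
      rw [Algebra.smul_def]
      exact Ideal.mul_mem_left _ _ (hnil i)
    refine ⟨f x, ?_, ?_⟩
    · obtain ⟨k, hk⟩ := hxrad
      rw [Ideal.mem_span_singleton] at hk
      obtain ⟨z, hz⟩ := hk
      refine ⟨k, ?_⟩
      rw [Ideal.mem_span_singleton, ← map_pow, hz, map_mul, AlgHom.commutes]
      exact Dvd.intro _ rfl
    · rw [redCoord_map φ f b b' x, hx, redCoord_sum, hPl, Matrix.mulVecLin_apply]
      congr 1
      exact Finset.sum_congr rfl fun i _ => by rw [hl i]
  have hdiscr' : ϖ ^ (Module.finrank κ U) ∣ Algebra.discr R b' :=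
    pow_finrank_dvd_discr φ hφ hϖ hker b' U hU
  rw [discr_eq_det_sq_mul f hf b b', ← hP]
  have h2 : ϖ ^ (c * 2 + Module.finrank κ U) ∣ P.det ^ 2 * Algebra.discr R b' := by
    rw [pow_add, pow_mul]
    exact mul_dvd_mul (pow_dvd_pow_of_dvd hdetP 2) hdiscr'
  exact dvd_trans (pow_dvd_pow ϖ (by omega)) h2

end Core

section Wrappers

variable {R : Type*} [CommRing R] [IsDomain R] [IsPrincipalIdealRing R]
variable {B : Type*} [CommRing B] [IsDomain B] [Algebra R B]
variable {ι : Type*} [Fintype ι] [DecidableEq ι]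

/-- The elements `v i` of `B` are linearly independent modulo `ϖ`. -/
def IndepMod (ϖ : R) {a : ℕ} (v : Fin a → B) : Prop :=
  ∀ c : Fin a → R, algebraMap R B ϖ ∣ ∑ i, c i • v i → ∀ i, ϖ ∣ c i

/-- The elements `v i` of `B` are nilpotent modulo `ϖ`. -/
def NilMod (ϖ : R) {a : ℕ} (v : Fin a → B) : Prop :=
  ∀ i, ∃ k : ℕ, algebraMap R B ϖ ∣ v i ^ k

omit [IsDomain R] [IsPrincipalIdealRing R] [IsDomain B] in
theorem IndepMod.linearIndependent {κ : Type*} [Field κ] (φ : R →+* κ)
    (hφ : Function.Surjective φ) {ϖ : R} (hker : ∀ x, φ x = 0 ↔ ϖ ∣ x) (b : Module.Basis ι R B)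
    {a : ℕ} {v : Fin a → B} (h : IndepMod ϖ v) :
    LinearIndependent κ (fun i => redCoord φ b (v i)) := by
  rw [Fintype.linearIndependent_iff]
  intro g hg i
  choose c hc using fun i => hφ (g i)
  have h1 : redCoord φ b (∑ i, c i • v i) = 0 := by
    rw [redCoord_sum, ← hg]
    exact Finset.sum_congr rfl fun i _ => by rw [hc i]
  rw [redCoord_eq_zero_iff φ hker b] at h1
  rw [← hc i, hker]
  exact h c h1 i

open Polynomial in
/-- Every element of `B[y]` has a `ϖ`-power multiple in `B` when `ϖ y ∈ B` and `y` is integral. -/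
theorem exists_pow_mul_mem_of_mem_adjoin
    {E : Type*} [CommRing E] [IsDomain E] [Algebra R E] [Algebra B E] [IsScalarTower R B E]
    {ϖ : R} {y : E} (hy : IsIntegral B y) {c0 : B}
    (hc0 : algebraMap B E c0 = algebraMap R E ϖ * y) :
    ∃ N : ℕ, ∀ s ∈ Algebra.adjoin B ({y} : Set E),
      ∃ c : B, algebraMap B E c = algebraMap R E ϖ ^ N * s := by
  obtain ⟨p, hp, hpy⟩ := hy
  refine ⟨p.natDegree, fun s hs => ?_⟩
  rw [Algebra.adjoin_singleton_eq_range_aeval] at hs
  obtain ⟨q, rfl⟩ := hs
  set r := q %ₘ p with hr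
  have hqr : aeval y q = aeval y r := by
    have hp0 : aeval y p = 0 := by rw [aeval_def]; exact hpy
    conv_lhs => rw [← Polynomial.modByMonic_add_div q p]
    rw [map_add, map_mul, hp0, zero_mul, add_zero]
  have hdeg : r.natDegree < p.natDegree + 1 :=
    Nat.lt_succ_of_le (Polynomial.natDegree_modByMonic_le q hp)
  refine ⟨∑ i ∈ Finset.range (p.natDegree + 1),
    r.coeff i * (algebraMap R B ϖ) ^ (p.natDegree - i) * c0 ^ i, ?_⟩
  change algebraMap B E _ = algebraMap R E ϖ ^ p.natDegree * (aeval y q)
  rw [hqr, Polynomial.aeval_eq_sum_range' hdeg, map_sum, Finset.mul_sum]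
  refine Finset.sum_congr rfl fun i hi => ?_
  have hi' : i ≤ p.natDegree := Nat.lt_succ_iff.1 (Finset.mem_range.1 hi)
  rw [map_mul, map_mul, map_pow, map_pow, hc0, ← IsScalarTower.algebraMap_apply R B E,
    Algebra.smul_def, mul_pow]
  have : algebraMap R E ϖ ^ p.natDegree
      = algebraMap R E ϖ ^ (p.natDegree - i) * algebraMap R E ϖ ^ i := by
    rw [← pow_add, Nat.sub_add_cancel hi']
  rw [this]
  ring

/-- **Local normality criterion.** Let `B` be a domain, free with basis `b` over the PID `R`, and
`ϖ` a prime of `R`. Suppose `B` contains `a` elements nilpotent mod `ϖ` and independent mod `ϖ`,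
and `ϖ ^ (a + 1) ∤ discr R b`. Then every `y` (in any domain `E ⊇ B`) which is integral over `B`
and satisfies `ϖ y ∈ B` already lies in `B`. -/
theorem exists_algebraMap_eq_of_isIntegral_of_discr
    {E : Type*} [CommRing E] [IsDomain E] [Algebra R E] [Algebra B E] [IsScalarTower R B E]
    (hBE : Function.Injective (algebraMap B E))
    (b : Module.Basis ι R B) {ϖ : R} (hϖ : Prime ϖ) {a : ℕ} (v : Fin a → B)
    (hnil : NilMod ϖ v) (hind : IndepMod ϖ v) (hdisc : ¬ ϖ ^ (a + 1) ∣ Algebra.discr R b)
    {y : E} (hy : IsIntegral B y) {c0 : B} (hc0 : algebraMap B E c0 = algebraMap R E ϖ * y) :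
    ∃ c' : B, algebraMap B E c' = y := by
  classical
  by_contra hne
  push Not at hne
  -- residue field
  haveI hmax : (Ideal.span ({ϖ} : Set R)).IsMaximal :=
    PrincipalIdealRing.isMaximal_of_irreducible hϖ.irreducible
  letI : Field (R ⧸ Ideal.span ({ϖ} : Set R)) := Ideal.Quotient.field _
  set φ : R →+* (R ⧸ Ideal.span ({ϖ} : Set R)) := Ideal.Quotient.mk _ with hφdef
  have hφ : Function.Surjective φ := Ideal.Quotient.mk_surjective
  have hker : ∀ x, φ x = 0 ↔ ϖ ∣ x := fun x => by
    rw [hφdef, Ideal.Quotient.eq_zero_iff_mem, Ideal.mem_span_singleton]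
  -- basic facts
  haveI : Module.Free R B := Module.Free.of_basis b
  haveI : Module.Finite R B := Module.Finite.of_basis b
  have hRB : Function.Injective (algebraMap R B) := FaithfulSMul.algebraMap_injective R B
  have hRE : Function.Injective (algebraMap R E) := by
    rw [IsScalarTower.algebraMap_eq R B E]
    exact hBE.comp hRB
  have hϖE : algebraMap R E ϖ ≠ 0 := fun h => hϖ.ne_zero (hRE (by rw [h, map_zero]))
  -- the overring
  set S : Subalgebra B E := Algebra.adjoin B ({y} : Set E) with hS
  haveI : Module.Finite B S := Module.Finite.iff_fg.2 hy.fg_adjoin_singleton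
  haveI : IsScalarTower R B S := ⟨fun r x s => Subtype.ext (smul_assoc r x (s : E))⟩
  haveI : Module.Finite R S := Module.Finite.trans B S
  haveI : Module.IsTorsionFree R S := Module.IsTorsionFree.of_smul_eq_zero (fun r s hrs => by
    have h1 : algebraMap R E r * (s : E) = 0 := by
      rw [← Algebra.smul_def]
      exact congrArg Subtype.val hrs
    rcases mul_eq_zero.1 h1 with h | h
    · exact Or.inl (hRE (by rw [h, map_zero]))
    · exact Or.inr (Subtype.ext h))
  haveI : Module.Free R S := Module.free_of_finite_type_torsion_free'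
  let f : B →ₐ[R] S := (Algebra.ofId B S).restrictScalars R
  have hfval : ∀ x : B, ((f x : S) : E) = algebraMap B E x := fun x => rfl
  have hf : Function.Injective f := fun x x' h => hBE (by rw [← hfval, ← hfval, h])
  -- rank of the overring
  have hrank1 : Fintype.card ι ≤ Module.finrank R S := by
    rw [← Module.finrank_eq_card_basis b]
    exact LinearMap.finrank_le_finrank_of_injective (f := f.toLinearMap) hf
  have hrank2 : Module.finrank R S ≤ Fintype.card ι := by
    obtain ⟨N, hN⟩ := exists_pow_mul_mem_of_mem_adjoin (R := R) hy hc0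
    rw [← Module.finrank_eq_card_basis b]
    let iB : B →ₗ[R] E := (Algebra.linearMap B E).restrictScalars R
    have hiB : Function.Injective iB := hBE
    let eB : B ≃ₗ[R] LinearMap.range iB := LinearEquiv.ofInjective iB hiB
    let m : S →ₗ[R] E := (ϖ ^ N) • ((S.val.toLinearMap).restrictScalars R)
    have hm : ∀ s : S, m s ∈ LinearMap.range iB := by
      intro s
      obtain ⟨c, hc⟩ := hN s s.2
      refine ⟨c, ?_⟩
      show algebraMap B E c = (ϖ ^ N) • (s : E)
      rw [hc, Algebra.smul_def, map_pow]
    let g : S →ₗ[R] B := eB.symm.toLinearMap ∘ₗ (m.codRestrict (LinearMap.range iB) hm)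
    refine LinearMap.finrank_le_finrank_of_injective (f := g) ?_
    intro s s' hss'
    have h1 : m.codRestrict (LinearMap.range iB) hm s = m.codRestrict (LinearMap.range iB) hm s' :=
      eB.symm.injective hss'
    have h2 : m s = m s' := congrArg Subtype.val h1
    have h3 : (ϖ ^ N) • (s : E) = (ϖ ^ N) • (s' : E) := h2
    rw [Algebra.smul_def, Algebra.smul_def] at h3
    exact Subtype.ext (mul_left_cancel₀ (by rw [map_pow]; exact pow_ne_zero _ hϖE) h3)
  have hcard : Fintype.card (Module.Free.ChooseBasisIndex R S) = Fintype.card ι := by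
    rw [← Module.finrank_eq_card_chooseBasisIndex]
    exact le_antisymm hrank2 hrank1
  let b' : Module.Basis ι R S := (Module.Free.chooseBasis R S).reindex (Fintype.equivOfCardEq hcard)
  -- the witness
  let y' : S := ⟨y, Algebra.self_mem_adjoin_singleton B y⟩
  have hy' : f c0 = ϖ • y' := by
    apply Subtype.ext
    show algebraMap B E c0 = ϖ • y
    rw [hc0, Algebra.smul_def]
  have hc0' : ¬ algebraMap R B ϖ ∣ c0 := by
    rintro ⟨c', hc'⟩
    apply hne c'
    have h1 : algebraMap R E ϖ * y = algebraMap R E ϖ * algebraMap B E c' := by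
      rw [← hc0, hc', map_mul, ← IsScalarTower.algebraMap_apply R B E]
    exact (mul_left_cancel₀ hϖE h1).symm
  have hnil' : ∀ i, v i ∈ (Ideal.span {algebraMap R B ϖ}).radical := fun i => by
    obtain ⟨k, hk⟩ := hnil i
    exact ⟨k, Ideal.mem_span_singleton.2 hk⟩
  exact hdisc (pow_succ_dvd_discr_of_overring φ hφ hϖ hker f hf b b' v hnil'
    (hind.linearIndependent φ hφ hker b) c0 hc0' y' hy')

/-- **Normality criterion from a discriminant bound (global form).** Let `B` be a domain, free
with basis `b` over the PID `R`. Suppose that for every prime `ϖ` of `R` dividing `discr R b` there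
are `a` elements of `B`, nilpotent modulo `ϖ` and linearly independent modulo `ϖ`, with
`ϖ ^ (a + 1) ∤ discr R b` (i.e. `ord_ϖ (discr) ≤ dim nil(B / ϖ B)`). Then `B` is integrally closed. -/
theorem isIntegrallyClosed_of_discr (b : Module.Basis ι R B)
    (h : ∀ ϖ : R, Prime ϖ → ϖ ∣ Algebra.discr R b →
      ∃ (a : ℕ) (v : Fin a → B), NilMod ϖ v ∧ IndepMod ϖ v ∧ ¬ ϖ ^ (a + 1) ∣ Algebra.discr R b) :
    IsIntegrallyClosed B := by
  classical
  haveI : Module.Free R B := Module.Free.of_basis b
  haveI : Module.Finite R B := Module.Finite.of_basis b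
  rw [isIntegrallyClosed_iff (FractionRing B)]
  intro x hx
  have hBE : Function.Injective (algebraMap B (FractionRing B)) := IsFractionRing.injective B _
  -- local step
  have hloc : ∀ ϖ : R, Prime ϖ → ∀ y : FractionRing B, IsIntegral B y →
      (∃ c0 : B, algebraMap B (FractionRing B) c0 = algebraMap R (FractionRing B) ϖ * y) →
      ∃ c' : B, algebraMap B (FractionRing B) c' = y := by
    intro ϖ hϖ y hy ⟨c0, hc0⟩
    by_cases hd : ϖ ∣ Algebra.discr R b
    · obtain ⟨a, v, hnil, hind, hdisc⟩ := h ϖ hϖ hd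
      exact exists_algebraMap_eq_of_isIntegral_of_discr hBE b hϖ v hnil hind hdisc hy hc0
    · exact exists_algebraMap_eq_of_isIntegral_of_discr hBE b hϖ (a := 0) (fun i => i.elim0)
        (fun i => i.elim0) (fun _ _ i => i.elim0) (by simpa using hd) hy hc0
  -- induction on the denominator
  have key : ∀ d : R, d ≠ 0 → ∀ y : FractionRing B, IsIntegral B y →
      (∃ c : B, algebraMap B (FractionRing B) c = algebraMap R (FractionRing B) d * y) →
      ∃ c' : B, algebraMap B (FractionRing B) c' = y := by
    intro d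
    induction d using UniqueFactorizationMonoid.induction_on_prime with
    | h₁ => intro h0; exact absurd rfl h0
    | h₂ u hu =>
      intro _ y _ ⟨c, hc⟩
      obtain ⟨u', rfl⟩ := hu
      refine ⟨((u'⁻¹ : Rˣ) : R) • c, ?_⟩
      rw [Algebra.smul_def, map_mul, hc, ← IsScalarTower.algebraMap_apply R B (FractionRing B),
        ← mul_assoc, ← map_mul, Units.inv_mul, map_one, one_mul]
    | h₃ a p ha hp ih =>
      intro _ y hy ⟨c, hc⟩
      apply ih ha y hy
      have hint : IsIntegral B (algebraMap R (FractionRing B) a * y) := by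
        rw [IsScalarTower.algebraMap_apply R B (FractionRing B)]
        exact IsIntegral.mul isIntegral_algebraMap hy
      exact hloc p hp _ hint ⟨c, by rw [hc, map_mul, mul_assoc]⟩
  -- find a denominator in `R`
  obtain ⟨b1, b2, hb2, rfl⟩ := IsFractionRing.div_surjective (A := B) x
  have halg : IsAlgebraic R b2 := (Algebra.IsIntegral.isIntegral (R := R) b2).isAlgebraic
  obtain ⟨d, hd0, b3, hb3⟩ := halg.exists_nonzero_dvd hb2
  have hb2' : algebraMap B (FractionRing B) b2 ≠ 0 := by
    intro h0
    exact (nonZeroDivisors.ne_zero hb2) (hBE (by rw [h0, map_zero]))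
  refine key d hd0 _ hx ⟨b3 * b1, ?_⟩
  rw [IsScalarTower.algebraMap_apply R B (FractionRing B), hb3, map_mul, map_mul]
  field_simp

end Wrappers

end Fermat.Agent.S18.H82
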