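/-
S18 / helper82 — generic GAUSS STEP of Theorem D (report #1088 (b), sub-leaf G3 of #1255), Mathlib only.

`A` a PID with a residue map `res : A →+* k` onto a field whose kernel consists of the non-units
(e.g. a DVR and its residue field), `K = Frac A`.  Let `D : A[X]` have nonzero reduction, and suppose
every irreducible factor of `D` over `K` divides some `X - a` (`a ∈ τ`) or divides `Q`, where the
reduction of `Q` is a nonzero constant.  If `res` is injective on `τ`, then
* every irreducible factor of `D mod ϖ` is associated to `X - res a` for some `a ∈ τ`;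
* `(X - res a) ^ m ∣ D mod ϖ` implies `(X - a) ^ m ∣ D`  (for `a ∈ τ`).
-/
import Mathlib

set_option autoImplicit false

namespace Fermat.Agent.S18.H82

open Polynomial

section GaussStep

variable {A : Type*} [CommRing A] [IsDomain A] [IsPrincipalIdealRing A]
variable {k : Type*} [Field k] (res : A →+* k)
variable (K : Type*) [Field K] [Algebra A K] [IsFractionRing A K]

/-- Classification of the prime factors of `D` in `A[X]`. -/
theorem gaussStep_factor (hloc : ∀ x : A, res x = 0 ∨ IsUnit x)
    (τ : Set A) {Q : A[X]} (hQ : ∃ c : k, c ≠ 0 ∧ Q.map res = C c)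
    {q : A[X]} (hq : Irreducible q) (hq0 : q.map res ≠ 0)
    (hfac : (∃ a ∈ τ, q.map (algebraMap A K) ∣ (X - C a : A[X]).map (algebraMap A K)) ∨
      q.map (algebraMap A K) ∣ Q.map (algebraMap A K)) :
    (∃ a ∈ τ, Associated q (X - C a)) ∨ IsUnit (q.map res) := by
  by_cases hdeg : q.natDegree = 0
  · exfalso
    have hqC : q = C (q.coeff 0) := eq_C_of_natDegree_eq_zero hdeg
    rcases hloc (q.coeff 0) with h | h
    · apply hq0
      rw [hqC, map_C, h, C_0]
    · apply hq.not_isUnit
      rw [hqC]
      exact isUnit_C.2 h
  · have hprim : q.IsPrimitive := hq.isPrimitive hdeg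
    rcases hfac with ⟨a, ha, hdvd⟩ | hdvd
    · left
      refine ⟨a, ha, ?_⟩
      have h1 : q ∣ X - C a := hprim.dvd_of_fraction_map_dvd_fraction_map hdvd
      exact hq.associated_of_dvd (irreducible_X_sub_C a) h1
    · right
      have h1 : q ∣ Q := hprim.dvd_of_fraction_map_dvd_fraction_map hdvd
      obtain ⟨c, hc, hQc⟩ := hQ
      have h2 : q.map res ∣ C c := by
        rw [← hQc]
        exact Polynomial.map_dvd res h1
      exact isUnit_of_dvd_unit h2 (isUnit_C.2 (isUnit_iff_ne_zero.2 hc))

/-- **Gauss step.** -/
theorem gaussStep (hloc : ∀ x : A, res x = 0 ∨ IsUnit x)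
    (τ : Set A) (hτ : ∀ a ∈ τ, ∀ b ∈ τ, res a = res b → a = b)
    {Q : A[X]} (hQ : ∃ c : k, c ≠ 0 ∧ Q.map res = C c)
    (D : A[X]) (hD : D.map res ≠ 0)
    (hfac : ∀ q : K[X], Irreducible q → q ∣ D.map (algebraMap A K) →
      (∃ a ∈ τ, q ∣ (X - C a : A[X]).map (algebraMap A K)) ∨ q ∣ Q.map (algebraMap A K)) :
    (∀ p : k[X], Irreducible p → p ∣ D.map res → ∃ a ∈ τ, Associated p (X - C (res a))) ∧
      (∀ a ∈ τ, ∀ m : ℕ, (X - C (res a)) ^ m ∣ D.map res → (X - C a) ^ m ∣ D) := by
  induction D using UniqueFactorizationMonoid.induction_on_prime with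
  | h₁ => exact absurd (Polynomial.map_zero res) hD
  | h₂ u hu =>
    have hu' : IsUnit (u.map res) := hu.map (mapRingHom res)
    refine ⟨fun p hp hpu => absurd (isUnit_of_dvd_unit hpu hu') hp.not_isUnit, fun a _ m hm => ?_⟩
    rcases Nat.eq_zero_or_pos m with rfl | hmpos
    · simp
    · exfalso
      have h1 : (X - C (res a)) ∣ u.map res := dvd_trans (dvd_pow_self _ hmpos.ne') hm
      exact (irreducible_X_sub_C (res a)).not_isUnit (isUnit_of_dvd_unit h1 hu')
  | h₃ D q hD0 hq ih =>
    rw [Polynomial.map_mul] at hD
    have hq0 : q.map res ≠ 0 := left_ne_zero_of_mul hD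
    have hDbar : D.map res ≠ 0 := right_ne_zero_of_mul hD
    have hfacD : ∀ q' : K[X], Irreducible q' → q' ∣ D.map (algebraMap A K) →
        (∃ a ∈ τ, q' ∣ (X - C a : A[X]).map (algebraMap A K)) ∨ q' ∣ Q.map (algebraMap A K) := by
      intro q' hq' hdvd
      refine hfac q' hq' ?_
      rw [Polynomial.map_mul]
      exact Dvd.dvd.mul_left hdvd _
    obtain ⟨ih1, ih2⟩ := ih hDbar hfacD
    -- classification of `q`
    have hqirr : Irreducible q := hq.irreducible
    have hclass : (∃ a ∈ τ, Associated q (X - C a)) ∨ IsUnit (q.map res) := by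
      by_cases hdeg : q.natDegree = 0
      · exfalso
        have hqC : q = C (q.coeff 0) := eq_C_of_natDegree_eq_zero hdeg
        rcases hloc (q.coeff 0) with h | h
        · apply hq0
          rw [hqC, map_C, h, C_0]
        · apply hqirr.not_isUnit
          rw [hqC]
          exact isUnit_C.2 h
      · have hprim : q.IsPrimitive := hqirr.isPrimitive hdeg
        have hirrK : Irreducible (q.map (algebraMap A K)) :=
          (hprim.irreducible_iff_irreducible_map_fraction_map).1 hqirr
        have hdvdK : q.map (algebraMap A K) ∣ (q * D).map (algebraMap A K) := by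
          rw [Polynomial.map_mul]
          exact dvd_mul_right _ _
        exact gaussStep_factor res K hloc τ hQ hqirr hq0 (hfac _ hirrK hdvdK)
    rw [Polynomial.map_mul]
    refine ⟨fun p hp hpdvd => ?_, fun a ha m hm => ?_⟩
    · have hpprime : Prime p := hp.prime
      rcases hpprime.dvd_or_dvd hpdvd with h | h
      · rcases hclass with ⟨a', ha', hass⟩ | hunit
        · refine ⟨a', ha', ?_⟩
          have hass' : Associated (q.map res) (X - C (res a')) := by
            have := hass.map (mapRingHom res)
            simpa using this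
          exact hp.associated_of_dvd (irreducible_X_sub_C (res a')) (h.trans hass'.dvd)
        · exact absurd (isUnit_of_dvd_unit h hunit) hp.not_isUnit
      · exact ih1 p hp h
    · rcases hclass with ⟨a', ha', hass⟩ | hunit
      · have hass' : Associated (q.map res) (X - C (res a')) := by
          have := hass.map (mapRingHom res)
          simpa using this
        by_cases haa : a' = a
        · subst haa
          rcases Nat.eq_zero_or_pos m with rfl | hmpos
          · simp
          · obtain ⟨m', rfl⟩ : ∃ m', m = m' + 1 := ⟨m - 1, by omega⟩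
            have h1 : (X - C (res a')) ^ (m' + 1) ∣ (X - C (res a')) * D.map res :=
              hm.trans (mul_dvd_mul_right hass'.dvd _)
            rw [pow_succ', mul_dvd_mul_iff_left (X_sub_C_ne_zero (res a'))] at h1
            have h2 : (X - C a') ^ m' ∣ D := ih2 a' ha' m' h1
            rw [pow_succ']
            exact mul_dvd_mul hass.symm.dvd h2
        · have hne : res a ≠ res a' := fun h => haa (hτ a' ha' a ha h.symm)
          have hcop : IsCoprime ((X - C (res a)) ^ m) (X - C (res a')) :=
            (isCoprime_X_sub_C_of_isUnit_sub (isUnit_iff_ne_zero.2 (sub_ne_zero.2 hne))).pow_left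
          have h1 : (X - C (res a)) ^ m ∣ (X - C (res a')) * D.map res :=
            hm.trans (mul_dvd_mul_right hass'.dvd _)
          have h2 : (X - C (res a)) ^ m ∣ D.map res := hcop.dvd_of_dvd_mul_left h1
          exact (ih2 a ha m h2).trans (dvd_mul_left _ _)
      · have h2 : (X - C (res a)) ^ m ∣ D.map res := (hunit.dvd_mul_left).1 hm
        exact (ih2 a ha m h2).trans (dvd_mul_left _ _)

end GaussStep

end Fermat.Agent.S18.H82
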