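/-
S18 / Program J, second core (route #1088), Theorem D sub-skeleton of helper8 (origin/helper8
`Fermat/Agent/S18/H8/TheoremDSkel.lean`): leaf L6 `exists_quotient_basis`, statement verbatim.

If `C'` is a finite torsion-free `A₀[X]`-algebra, `c : ι → C'` is `A₀[X]`-linearly independent,
and `g • C' ⊆ span (c i)` for some `g ≡ 1 mod ϖ`, then for every `a : A₀` the fibre
`C' / (X - a)` is `A₀`-free on the images of the `c i`.
Mathlib only.  helper82.
-/
import Mathlib

set_option autoImplicit false

open Polynomial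

namespace Fermat.Agent.S18.H82

section Concrete

variable {A₀ : Type*} [CommRing A₀] [IsDomain A₀] [IsDiscreteValuationRing A₀]
  {C' : Type*} [CommRing C'] [IsDomain C'] [Algebra A₀[X] C'] [Module.Finite A₀[X] C']
  [Module.IsTorsionFree A₀[X] C'] [IsIntegrallyClosed C']

/-- The `A₀`-algebra structure on `C'` (through `A₀[X]`). -/
@[reducible] noncomputable def algBase (A₀ : Type*) [CommRing A₀] (C' : Type*) [CommRing C']
    [Algebra A₀[X] C'] : Algebra A₀ C' :=
  ((algebraMap A₀[X] C').comp (C : A₀ →+* A₀[X])).toAlgebra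

omit [IsDomain A₀] [IsDiscreteValuationRing A₀] [IsDomain C'] [Module.Finite A₀[X] C']
  [Module.IsTorsionFree A₀[X] C'] [IsIntegrallyClosed C'] in
/-- Modulo `X - a`, multiplication by `f` is multiplication by `f(a)`. -/
theorem quot_mk_smul_eq_eval (a : A₀) (f : A₀[X]) (x : C') :
    letI := algBase A₀ C'
    Ideal.Quotient.mk (Ideal.span {algebraMap A₀[X] C' (X - C a)}) (f • x) =
      f.eval a • Ideal.Quotient.mk (Ideal.span {algebraMap A₀[X] C' (X - C a)}) x := by
  let _ := algBase A₀ C'
  obtain ⟨q, hq⟩ := Polynomial.X_sub_C_dvd_sub_C_eval (a := a) (p := f)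
  have h1 : f • x - (f.eval a) • x = algebraMap A₀[X] C' (X - C a) * (q • x) := by
    have h2 : (f.eval a) • x = (C (f.eval a) : A₀[X]) • x := by
      rw [Algebra.smul_def, Algebra.smul_def]; rfl
    rw [h2, ← sub_smul, hq, mul_smul, Algebra.smul_def (X - C a)]
  have h3 : Ideal.Quotient.mk (Ideal.span {algebraMap A₀[X] C' (X - C a)}) (f • x) -
      Ideal.Quotient.mk (Ideal.span {algebraMap A₀[X] C' (X - C a)}) ((f.eval a) • x) = 0 := by
    rw [← RingHom.map_sub, Ideal.Quotient.eq_zero_iff_mem, h1]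
    exact Ideal.mul_mem_right _ _ (Ideal.subset_span rfl)
  rw [sub_eq_zero] at h3
  rw [h3]
  rfl

/-- **L6** (helper8's Theorem D sub-skeleton, verbatim): the fibre `W = C' / (X - a)` is
`A₀`-free on the images of the `c i`. -/
theorem exists_quotient_basis (ϖ : A₀) (hϖ : Irreducible ϖ)
    {ι : Type*} [Fintype ι] [DecidableEq ι] (c : ι → C') (hc : LinearIndependent A₀[X] c)
    (g : A₀[X]) (hg : ∀ x : C', g • x ∈ Submodule.span A₀[X] (Set.range c))
    (hgϖ : C ϖ ∣ g - 1) (a : A₀) :
    letI := algBase A₀ C'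
    ∃ bW : Module.Basis ι A₀ (C' ⧸ Ideal.span {algebraMap A₀[X] C' (X - C a)}),
      ∀ i, bW i = Ideal.Quotient.mk _ (c i) := by
  let _ := algBase A₀ C'
  -- `g(a)` is a unit of the local ring `A₀`
  have hga : IsUnit (g.eval a) := by
    obtain ⟨h, hh⟩ := hgϖ
    have h1 : 1 - g.eval a = ϖ * (-(h.eval a)) := by
      have h2 := congrArg (eval a) hh
      simp only [eval_sub, eval_one, eval_mul, eval_C] at h2
      linear_combination -h2
    apply IsLocalRing.isUnit_of_mem_nonunits_one_sub_self
    rw [h1]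
    exact fun hu => hϖ.not_isUnit (isUnit_of_mul_isUnit_left hu)
  have key := fun (f : A₀[X]) (x : C') => quot_mk_smul_eq_eval (C' := C') a f x
  -- linear independence
  have hli : LinearIndependent A₀
      (fun i => Ideal.Quotient.mk (Ideal.span {algebraMap A₀[X] C' (X - C a)}) (c i)) := by
    rw [Fintype.linearIndependent_iff]
    intro α hα i
    have h1 : Ideal.Quotient.mk (Ideal.span {algebraMap A₀[X] C' (X - C a)})
        (∑ i, (C (α i) : A₀[X]) • c i) = 0 := by
      rw [map_sum, ← hα]
      refine Finset.sum_congr rfl fun i _ => ?_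
      rw [key, eval_C]
    rw [Ideal.Quotient.eq_zero_iff_mem, Ideal.mem_span_singleton] at h1
    obtain ⟨x, hx⟩ := h1
    obtain ⟨β, hβ⟩ := (Submodule.mem_span_range_iff_exists_fun A₀[X]).1 (hg x)
    have h2 : ∑ i, (g * C (α i) - (X - C a) * β i) • c i = 0 := by
      have e1 : ∑ i, (g * C (α i) - (X - C a) * β i) • c i =
          g • ∑ i, (C (α i) : A₀[X]) • c i - (X - C a) • ∑ i, β i • c i := by
        rw [Finset.smul_sum, Finset.smul_sum, ← Finset.sum_sub_distrib]
        exact Finset.sum_congr rfl fun i _ => by rw [sub_smul, mul_smul, mul_smul]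
      rw [e1, hx, hβ, ← Algebra.smul_def, smul_comm, sub_self]
    have h3 := Fintype.linearIndependent_iff.1 hc _ h2 i
    have h4 := congrArg (eval a) h3
    simp only [eval_sub, eval_mul, eval_C, eval_X, sub_self, zero_mul, sub_zero, eval_zero] at h4
    exact (hga.mul_right_eq_zero).1 h4
  -- spanning
  have hsp : ⊤ ≤ Submodule.span A₀ (Set.range
      (fun i => Ideal.Quotient.mk (Ideal.span {algebraMap A₀[X] C' (X - C a)}) (c i))) := by
    rintro y -
    obtain ⟨x, rfl⟩ := Ideal.Quotient.mk_surjective y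
    obtain ⟨β, hβ⟩ := (Submodule.mem_span_range_iff_exists_fun A₀[X]).1 (hg x)
    have h1 : g.eval a • Ideal.Quotient.mk (Ideal.span {algebraMap A₀[X] C' (X - C a)}) x =
        ∑ i, (β i).eval a •
          Ideal.Quotient.mk (Ideal.span {algebraMap A₀[X] C' (X - C a)}) (c i) := by
      rw [← key, ← hβ, map_sum]
      exact Finset.sum_congr rfl fun i _ => key _ _
    obtain ⟨u, hu⟩ := hga
    have h2 : Ideal.Quotient.mk (Ideal.span {algebraMap A₀[X] C' (X - C a)}) x =
        (↑u⁻¹ : A₀) • ∑ i, (β i).eval a •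
          Ideal.Quotient.mk (Ideal.span {algebraMap A₀[X] C' (X - C a)}) (c i) := by
      rw [← h1, ← hu, smul_smul, Units.inv_mul, one_smul]
    rw [h2]
    refine Submodule.smul_mem _ _ (Submodule.sum_mem _ fun i _ => Submodule.smul_mem _ _ ?_)
    exact Submodule.subset_span ⟨i, rfl⟩
  exact ⟨Module.Basis.mk hli hsp, fun i => by rw [Module.Basis.mk_apply]⟩

end Concrete

end Fermat.Agent.S18.H82
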