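/-
S18 / helper82 — sub-leaf L0 of Leaf A (helper8's Theorem-D sub-skeleton @ebefb35), verbatim:
for a DVR `A₀` with uniformiser `ϖ`, the ring `A₀[X] / (C ϖ)` is a principal ideal domain
(it is `(A₀/ϖ)[X]`).  Also exported: the ring isomorphism and its value on classes.
-/
import Mathlib

set_option autoImplicit false
set_option linter.style.haveILetI false
set_option linter.unusedSectionVars false

open Polynomial

namespace Fermat.Agent.S18.H82

section

variable {A₀ : Type*} [CommRing A₀] [IsDomain A₀] [IsDiscreteValuationRing A₀]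

/-- `A₀[X]/(C ϖ) ≃ (A₀/ϖ)[X]`, sending the class of `f` to `f mod ϖ`. -/
theorem exists_quotEquivPolynomial (ϖ : A₀) :
    ∃ ψ : (A₀[X] ⧸ Ideal.span {(C ϖ : A₀[X])}) ≃+* (A₀ ⧸ Ideal.span {ϖ})[X],
      ∀ f : A₀[X], ψ (Ideal.Quotient.mk _ f) = f.map (Ideal.Quotient.mk (Ideal.span {ϖ})) := by
  have hIC : (Ideal.span {ϖ}).map (C : A₀ →+* A₀[X]) = Ideal.span {(C ϖ : A₀[X])} := by
    rw [Ideal.map_span, Set.image_singleton]
  refine ⟨(Ideal.quotEquivOfEq hIC.symm).trans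
    (Ideal.span {ϖ}).polynomialQuotientEquivQuotientPolynomial.symm, fun f => ?_⟩
  rw [RingEquiv.trans_apply, Ideal.quotEquivOfEq_mk,
    Ideal.polynomialQuotientEquivQuotientPolynomial_symm_mk]

theorem quotient_isDomain_isPrincipalIdealRing (ϖ : A₀) (hϖ : Irreducible ϖ) :
    IsDomain (A₀[X] ⧸ Ideal.span {(C ϖ : A₀[X])}) ∧
      IsPrincipalIdealRing (A₀[X] ⧸ Ideal.span {(C ϖ : A₀[X])}) := by
  haveI hmax : (Ideal.span {ϖ}).IsMaximal := PrincipalIdealRing.isMaximal_of_irreducible hϖ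
  letI : Field (A₀ ⧸ Ideal.span {ϖ}) := Ideal.Quotient.field _
  obtain ⟨ψ, -⟩ := exists_quotEquivPolynomial ϖ
  refine ⟨ψ.toMulEquiv.isDomain, ?_⟩
  exact IsPrincipalIdealRing.of_surjective ψ.symm.toRingHom ψ.symm.surjective

end

end Fermat.Agent.S18.H82
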