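/-
S18 / helper82 — generic sub-leaf G4 of Theorem D (report #1088 (d), #1255): SATURATED NILPOTENTS.

`A` a PID, `W` a commutative `A`-algebra which is finite free as an `A`-module (in Theorem D:
`W = C/(X - a)`, finite flat over the DVR `A₀`).  The nilradical `N` of `W` is a saturated
`A`-submodule; hence
* an `A`-basis `v` of `N` consists of nilpotents that stay linearly independent modulo any prime
  `ϖ` of `A` (`ϖ ∣ ∑ c i • v i` in `W` implies `ϖ ∣ c i`);
* `W / N` is free, and a lifted basis `u` is linearly independent modulo `N`;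
* `#v + #u = rank W`.
-/
import Mathlib

set_option autoImplicit false
set_option linter.style.haveILetI false

namespace Fermat.Agent.S18.H82

section SatNil

variable {A : Type*} [CommRing A] [IsDomain A] [IsPrincipalIdealRing A]
variable {W : Type*} [CommRing W] [Algebra A W] [Module.Free A W] [Module.Finite A W]

/-- The nilradical as an `A`-submodule. -/
def nilSubmodule (A : Type*) [CommRing A] (W : Type*) [CommRing W] [Algebra A W] : Submodule A W :=
  (nilradical W).restrictScalars A

omit [IsDomain A] [IsPrincipalIdealRing A] [Module.Free A W] [Module.Finite A W] in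
theorem mem_nilSubmodule {w : W} : w ∈ nilSubmodule A W ↔ IsNilpotent w := by
  simp [nilSubmodule, mem_nilradical]

omit [IsPrincipalIdealRing A] [Module.Finite A W] in
/-- The nilradical is saturated. -/
theorem mem_nilSubmodule_of_smul_mem {r : A} (hr : r ≠ 0) {w : W}
    (h : r • w ∈ nilSubmodule A W) : w ∈ nilSubmodule A W := by
  rw [mem_nilSubmodule] at h ⊢
  obtain ⟨k, hk⟩ := h
  refine ⟨k, ?_⟩
  rw [smul_pow] at hk
  rcases smul_eq_zero.1 hk with h0 | h0
  · exact absurd h0 (pow_ne_zero k hr)
  · exact h0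

/-- **Saturated nilpotents.** -/
theorem exists_nil_family :
    ∃ (ν ρ : ℕ) (v : Fin ν → W) (u : Fin ρ → W),
      ν + ρ = Module.finrank A W ∧
      (∀ i, IsNilpotent (v i)) ∧
      (∀ (ϖ : A), ϖ ≠ 0 → ∀ c : Fin ν → A, algebraMap A W ϖ ∣ ∑ i, c i • v i → ∀ i, ϖ ∣ c i) ∧
      (∀ c : Fin ρ → A, IsNilpotent (∑ i, c i • u i) → ∀ i, c i = 0) ∧
      (∀ w : W, IsNilpotent w → ∃ c : Fin ν → A, w = ∑ i, c i • v i) := by
  classical
  set N : Submodule A W := nilSubmodule A W with hN
  -- a basis of `N`
  obtain ⟨ν, ⟨bN⟩⟩ := Submodule.nonempty_basis_of_pid (Module.Free.chooseBasis A W) N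
  -- the quotient is torsion-free, hence free
  haveI : Module.IsTorsionFree A (W ⧸ N) := Module.IsTorsionFree.of_smul_eq_zero (fun r x hrx => by
    by_cases hr : r = 0
    · exact Or.inl hr
    · right
      obtain ⟨w, rfl⟩ := Submodule.Quotient.mk_surjective N x
      rw [← Submodule.Quotient.mk_smul, Submodule.Quotient.mk_eq_zero] at hrx
      rw [Submodule.Quotient.mk_eq_zero]
      exact mem_nilSubmodule_of_smul_mem hr hrx)
  obtain ⟨ρ, bQ⟩ : Σ n, Module.Basis (Fin n) A (W ⧸ N) := Module.basisOfFiniteTypeTorsionFree'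
  choose u hu using fun i => Submodule.Quotient.mk_surjective N (bQ i)
  refine ⟨ν, ρ, fun i => (bN i : W), u, ?_, ?_, ?_, ?_, ?_⟩
  · have h1 := Submodule.finrank_quotient_add_finrank N
    rw [Module.finrank_eq_card_basis bN, Module.finrank_eq_card_basis bQ, Fintype.card_fin,
      Fintype.card_fin] at h1
    omega
  · intro i
    exact mem_nilSubmodule.1 (bN i).2
  · intro ϖ hϖ c hc i
    obtain ⟨w, hw⟩ := hc
    have hwN : w ∈ N := by
      apply mem_nilSubmodule_of_smul_mem hϖ
      rw [Algebra.smul_def, ← hw]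
      exact Submodule.sum_mem _ fun i _ => Submodule.smul_mem _ _ (bN i).2
    -- coordinates of `w` in the basis `bN`
    have h1 : (∑ i, c i • bN i : N) = ϖ • (⟨w, hwN⟩ : N) := by
      apply Subtype.ext
      rw [Submodule.coe_sum, Submodule.coe_smul, Algebra.smul_def, ← hw]
      rfl
    have h2 := congrArg (fun x => bN.repr x i) h1
    simp only [map_sum, map_smul, Finsupp.coe_finsetSum, Finsupp.coe_smul, Finset.sum_apply,
      Pi.smul_apply, smul_eq_mul, Module.Basis.repr_self, Finsupp.single_apply] at h2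
    rw [Finset.sum_eq_single i (fun j _ hji => by simp [hji]) (fun h => absurd (Finset.mem_univ i) h)]
      at h2
    simp only [if_true, mul_one] at h2
    exact ⟨_, h2⟩
  · intro c hc
    have h1 : (∑ i, c i • u i) ∈ N := mem_nilSubmodule.2 hc
    have h2 : (∑ i, c i • bQ i) = 0 := by
      have h2' : (∑ i, c i • bQ i) = N.mkQ (∑ i, c i • u i) := by
        rw [map_sum]
        exact Finset.sum_congr rfl fun i _ => by rw [map_smul, Submodule.mkQ_apply, hu i]
      rw [h2', Submodule.mkQ_apply]
      exact (Submodule.Quotient.mk_eq_zero N).2 h1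
    have h3 := Fintype.linearIndependent_iff.1 bQ.linearIndependent c h2
    exact h3
  · intro w hw
    have hwN : w ∈ N := mem_nilSubmodule.2 hw
    refine ⟨fun i => bN.repr ⟨w, hwN⟩ i, ?_⟩
    have h1 := bN.sum_repr ⟨w, hwN⟩
    have h2 := congrArg Subtype.val h1
    rw [Submodule.coe_sum] at h2
    exact h2.symm

end SatNil

end Fermat.Agent.S18.H82
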