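/-
S18 / helper82 — sub-leaves L1, L3, L4 of Leaf A (abstract Theorem D, helper8's sub-skeleton
`S18/H8/TheoremDSkel.lean` @ebefb35), statements verbatim (up to the namespace).

* `isIntegrallyClosed_of_disc`  (L1)  — from `H82.isIntegrallyClosed_of_discr` (DiscLocal.lean)
* `gauss_step`                  (L3)  — UFD induction + `A₀[X]/(ϖ) ≃ (A₀/ϖ)[X]`
* `exists_nilpotent_split`      (L4)  — from `H82.exists_nil_family` (SatNil.lean)
-/
import Fermat.Agent.S18.H82.DiscLocal
import Fermat.Agent.S18.H82.SatNil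

set_option autoImplicit false
set_option linter.style.haveILetI false
set_option linter.unusedSectionVars false

open Polynomial

namespace Fermat.Agent.S18.H82

/-! ### L1: local-to-global normality criterion over a PID -/

theorem isIntegrallyClosed_of_disc
    {R S : Type*} [CommRing R] [IsDomain R] [IsPrincipalIdealRing R]
    [CommRing S] [IsDomain S] [Algebra R S]
    {ι : Type*} [Fintype ι] [DecidableEq ι] (b : Module.Basis ι R S)
    (hloc : ∀ p : R, Prime p → ∃ (r : ℕ) (y : Fin r → S),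
      (∀ k, ∃ m : ℕ, algebraMap R S p ∣ y k ^ m) ∧
      (∀ a : Fin r → R, algebraMap R S p ∣ ∑ k, a k • y k → ∀ k, p ∣ a k) ∧
      ¬ p ^ (r + 1) ∣ (Algebra.traceMatrix R b).det) :
    IsIntegrallyClosed S := by
  refine isIntegrallyClosed_of_discr b (fun p hp _ => ?_)
  obtain ⟨r, y, h1, h2, h3⟩ := hloc p hp
  exact ⟨r, y, h1, h2, h3⟩

/-! ### L3: Gauss step -/

section Gauss

variable {A : Type*} [CommRing A] [IsDomain A] [UniqueFactorizationMonoid A]
variable {k : Type*} [Field k] (res : A →+* k)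

/-- Gauss step with the hypothesis on the prime factors of `D` in `A[X]`. -/
theorem gaussStep_prime (τ : Set A) (hτ : ∀ a ∈ τ, ∀ b ∈ τ, res a = res b → a = b)
    {Q : A[X]} (hQ : ∃ c : k, c ≠ 0 ∧ Q.map res = C c)
    (D : A[X]) (hD : D.map res ≠ 0)
    (hgood : ∀ q : A[X], Prime q → q ∣ D → (∃ a ∈ τ, Associated q (X - C a)) ∨ q ∣ Q) :
    (∀ p : k[X], Irreducible p → p ∣ D.map res → ∃ a ∈ τ, Associated p (X - C (res a))) ∧
      (∀ a ∈ τ, ∀ m : ℕ, (X - C (res a)) ^ m ∣ D.map res → (X - C a) ^ m ∣ D) := by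
  induction D using UniqueFactorizationMonoid.induction_on_prime with
  | h₁ => exact absurd (Polynomial.map_zero res) hD
  | h₂ u hu =>
    have hu' : IsUnit (u.map res) := hu.map (mapRingHom res)
    refine ⟨fun p hp hpu => absurd (isUnit_of_dvd_unit hpu hu') hp.not_isUnit, fun a _ m hm => ?_⟩
    rcases Nat.eq_zero_or_pos m with rfl | hmpos
    · simp
    · exfalso
      have h1 : (X - C (res a)) ∣ u.map res := dvd_trans (dvd_pow_self _ hmpos.ne') hm
      exact (irreducible_X_sub_C (res a)).not_isUnit (isUnit_of_dvd_unit h1 hu')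
  | h₃ D q hD0 hq ih =>
    have hclass : (∃ a ∈ τ, Associated q (X - C a)) ∨ IsUnit (q.map res) := by
      rcases hgood q hq (dvd_mul_right q D) with h | h
      · exact Or.inl h
      · right
        obtain ⟨c, hc, hQc⟩ := hQ
        have h2 : q.map res ∣ C c := by
          rw [← hQc]
          exact Polynomial.map_dvd res h
        exact isUnit_of_dvd_unit h2 (isUnit_C.2 (isUnit_iff_ne_zero.2 hc))
    rw [Polynomial.map_mul] at hD
    have hDbar : D.map res ≠ 0 := right_ne_zero_of_mul hD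
    obtain ⟨ih1, ih2⟩ := ih hDbar (fun q' hq' hdvd => hgood q' hq' (Dvd.dvd.mul_left hdvd q))
    rw [Polynomial.map_mul]
    refine ⟨fun p hp hpdvd => ?_, fun a ha m hm => ?_⟩
    · have hpprime : Prime p := hp.prime
      rcases hpprime.dvd_or_dvd hpdvd with h | h
      · rcases hclass with ⟨a', ha', hass⟩ | hunit
        · refine ⟨a', ha', ?_⟩
          have hass' : Associated (q.map res) (X - C (res a')) := by
            have := hass.map (mapRingHom res)
            simpa using this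
          exact hp.associated_of_dvd (irreducible_X_sub_C (res a')) (h.trans hass'.dvd)
        · exact absurd (isUnit_of_dvd_unit h hunit) hp.not_isUnit
      · exact ih1 p hp h
    · rcases hclass with ⟨a', ha', hass⟩ | hunit
      · have hass' : Associated (q.map res) (X - C (res a')) := by
          have := hass.map (mapRingHom res)
          simpa using this
        by_cases haa : a' = a
        · subst haa
          rcases Nat.eq_zero_or_pos m with rfl | hmpos
          · simp
          · obtain ⟨m', rfl⟩ : ∃ m', m = m' + 1 := ⟨m - 1, by omega⟩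
            have h1 : (X - C (res a')) ^ (m' + 1) ∣ (X - C (res a')) * D.map res :=
              hm.trans (mul_dvd_mul_right hass'.dvd _)
            rw [pow_succ', mul_dvd_mul_iff_left (X_sub_C_ne_zero (res a'))] at h1
            have h2 : (X - C a') ^ m' ∣ D := ih2 a' ha' m' h1
            rw [pow_succ']
            exact mul_dvd_mul hass.symm.dvd h2
        · have hne : res a ≠ res a' := fun h => haa (hτ a' ha' a ha h.symm)
          have hcop : IsCoprime ((X - C (res a)) ^ m) (X - C (res a')) :=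
            (isCoprime_X_sub_C_of_isUnit_sub (isUnit_iff_ne_zero.2 (sub_ne_zero.2 hne))).pow_left
          have h1 : (X - C (res a)) ^ m ∣ (X - C (res a')) * D.map res :=
            hm.trans (mul_dvd_mul_right hass'.dvd _)
          have h2 : (X - C (res a)) ^ m ∣ D.map res := hcop.dvd_of_dvd_mul_left h1
          exact (ih2 a ha m h2).trans (dvd_mul_left _ _)
      · have h2 : (X - C (res a)) ^ m ∣ D.map res := (hunit.dvd_mul_left).1 hm
        exact (ih2 a ha m h2).trans (dvd_mul_left _ _)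

end Gauss

theorem gauss_step
    {A₀ : Type*} [CommRing A₀] [IsDomain A₀] [IsDiscreteValuationRing A₀]
    (ϖ : A₀) (hϖ : Irreducible ϖ) (τ : Finset A₀)
    (hτ : ∀ a ∈ τ, ∀ b ∈ τ, a ≠ b → IsUnit (a - b))
    (P₀ g : A₀[X]) (hP₀ : ∃ u : A₀, IsUnit u ∧ C ϖ ∣ P₀ - C u) (hg : C ϖ ∣ g - 1)
    (D : A₀[X]) (hD : ¬ C ϖ ∣ D)
    (hgood : ∀ q : A₀[X], Prime q → q ∣ D →
      (∃ a ∈ τ, Associated q (X - C a)) ∨ q ∣ P₀ ∨ q ∣ g)
    (p : A₀[X] ⧸ Ideal.span {(C ϖ : A₀[X])}) (hp : Prime p)
    (hpD : p ∣ Ideal.Quotient.mk _ D) :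
    ∃ a ∈ τ, Associated p (Ideal.Quotient.mk _ (X - C a)) ∧
      ∀ r : ℕ, p ^ r ∣ Ideal.Quotient.mk _ D → (X - C a) ^ r ∣ D := by
  classical
  -- the residue field and the residue map
  set I : Ideal A₀ := Ideal.span {ϖ} with hI
  haveI hmax : I.IsMaximal := PrincipalIdealRing.isMaximal_of_irreducible hϖ
  letI : Field (A₀ ⧸ I) := Ideal.Quotient.field I
  set res : A₀ →+* A₀ ⧸ I := Ideal.Quotient.mk I with hres
  have hker : ∀ x : A₀, res x = 0 ↔ ϖ ∣ x := fun x => by
    rw [hres, Ideal.Quotient.eq_zero_iff_mem, hI, Ideal.mem_span_singleton]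
  have hmapzero : ∀ f : A₀[X], f.map res = 0 ↔ C ϖ ∣ f := by
    intro f
    rw [C_dvd_iff_dvd_coeff, Polynomial.ext_iff]
    simp only [coeff_map, coeff_zero, hker]
  -- the ring isomorphism `A₀[X]/(C ϖ) ≃ (A₀/ϖ)[X]`
  have hIC : I.map (C : A₀ →+* A₀[X]) = Ideal.span {(C ϖ : A₀[X])} := by
    rw [hI, Ideal.map_span, Set.image_singleton]
  obtain ⟨ψ, hψmk⟩ : ∃ ψ : (A₀[X] ⧸ Ideal.span {(C ϖ : A₀[X])}) ≃+* (A₀ ⧸ I)[X],
      ∀ f : A₀[X], ψ (Ideal.Quotient.mk _ f) = f.map res := by
    refine ⟨(Ideal.quotEquivOfEq hIC.symm).trans I.polynomialQuotientEquivQuotientPolynomial.symm,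
      fun f => ?_⟩
    rw [RingEquiv.trans_apply, Ideal.quotEquivOfEq_mk,
      Ideal.polynomialQuotientEquivQuotientPolynomial_symm_mk]
  -- hypotheses of `gaussStep_prime`
  have hτ' : ∀ a ∈ (τ : Set A₀), ∀ b ∈ (τ : Set A₀), res a = res b → a = b := by
    intro a ha b hb hab
    by_contra hne
    have hu := hτ a ha b hb hne
    have h0 : res (a - b) = 0 := by rw [map_sub, hab, sub_self]
    exact hϖ.not_isUnit (isUnit_of_dvd_unit ((hker _).1 h0) hu)
  have hQ : ∃ c : A₀ ⧸ I, c ≠ 0 ∧ (P₀ * g).map res = C c := by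
    obtain ⟨u, hu, hPu⟩ := hP₀
    refine ⟨res u, (hu.map res).ne_zero, ?_⟩
    have h1 : P₀.map res = C (res u) := by
      have := (hmapzero (P₀ - C u)).2 hPu
      rw [Polynomial.map_sub, map_C, sub_eq_zero] at this
      exact this
    have h2 : g.map res = 1 := by
      have := (hmapzero (g - 1)).2 hg
      rw [Polynomial.map_sub, Polynomial.map_one, sub_eq_zero] at this
      exact this
    rw [Polynomial.map_mul, h1, h2, mul_one]
  have hDbar : D.map res ≠ 0 := fun h => hD ((hmapzero D).1 h)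
  have hgood' : ∀ q : A₀[X], Prime q → q ∣ D →
      (∃ a ∈ (τ : Set A₀), Associated q (X - C a)) ∨ q ∣ P₀ * g := by
    intro q hq hqD
    rcases hgood q hq hqD with h | h | h
    · exact Or.inl h
    · exact Or.inr (Dvd.dvd.mul_right h g)
    · exact Or.inr (Dvd.dvd.mul_left h P₀)
  obtain ⟨key1, key2⟩ := gaussStep_prime res (τ : Set A₀) hτ' hQ D hDbar hgood'
  -- transport
  have hψprime : Prime (ψ p) := (MulEquiv.prime_iff ψ.toMulEquiv).2 hp
  have hψp : Irreducible (ψ p) := hψprime.irreducible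
  have hψpD : ψ p ∣ D.map res := by
    have h := map_dvd ψ hpD
    rw [hψmk] at h
    exact h
  obtain ⟨a, ha, hass⟩ := key1 (ψ p) hψp hψpD
  have hass' : Associated p (Ideal.Quotient.mk _ (X - C a)) := by
    have h1 : Associated (ψ p) (ψ (Ideal.Quotient.mk _ (X - C a))) := by
      rw [hψmk, Polynomial.map_sub, map_X, map_C]
      exact hass
    have h2 := h1.map ψ.symm
    rw [RingEquiv.symm_apply_apply, RingEquiv.symm_apply_apply] at h2
    exact h2
  refine ⟨a, ha, hass', fun r hr => ?_⟩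
  apply key2 a ha r
  have h1 : (Ideal.Quotient.mk (Ideal.span {(C ϖ : A₀[X])}) (X - C a)) ^ r ∣
      Ideal.Quotient.mk _ D := (hass'.pow_pow (n := r)).symm.dvd.trans hr
  have h2 := map_dvd ψ h1
  rw [map_pow, hψmk, hψmk, Polynomial.map_sub, map_X, map_C] at h2
  exact h2

/-! ### L4: nilpotent split of a finite free algebra over a DVR -/

theorem exists_nilpotent_split
    {A₀ : Type*} [CommRing A₀] [IsDomain A₀] [IsDiscreteValuationRing A₀]
    (ϖ : A₀) (hϖ : Irreducible ϖ)
    (W : Type*) [CommRing W] [Algebra A₀ W] [Module.Finite A₀ W] [Module.Free A₀ W] :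
    ∃ (ν s : ℕ) (z : Fin ν → W) (v : Fin s → W),
      ν + s = Module.finrank A₀ W ∧ (∀ k, IsNilpotent (z k)) ∧
      (∀ l : Fin ν → A₀, (∃ w : W, ∑ k, l k • z k = ϖ • w) → ∀ k, ϖ ∣ l k) ∧
      (∀ a : Fin s → A₀, IsNilpotent (∑ k, a k • v k) → ∀ k, a k = 0) := by
  obtain ⟨ν, ρ, v, u, h1, h2, h3, h4, -⟩ := exists_nil_family (A := A₀) (W := W)
  refine ⟨ν, ρ, v, u, h1, h2, fun l hl => ?_, h4⟩
  obtain ⟨w, hw⟩ := hl
  exact h3 ϖ hϖ.ne_zero l ⟨w, by rw [hw, Algebra.smul_def]⟩

end Fermat.Agent.S18.H82
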