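/-
S18 / Program J, core 2, leaf K2-N (descent), step G1 of helper19's blueprint (#1509):
GENERIC semilinear transfer of bases, traces and Gram determinants.  Mathlib only.  helper82.

Setting: ring homomorphisms `ψ : R →+* S` and `φ : A →+* B`, with `A` an `R`-algebra, `B` an
`S`-algebra and `φ (algebraMap R A r) = algebraMap S B (ψ r)` (`φ` is `ψ`-semilinear).
In the application `R = K₀(x) ⊆ S = K(x)`, `A = F₀ ⊆ B = F`.

* `exists_basis_of_repr_mem_range`: if `φ`, `ψ` are injective, `b'` is an `S`-basis of `B` with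
  `b' i = φ (θ i)` and every `φ a` has its `b'`-coordinates in the range of `ψ`, then `θ` is an
  `R`-basis of `A`.
* `leftMulMatrix_map_of_basis`, `trace_map_of_basis`: the matrix of multiplication by `φ a` in the
  basis `b'` is the image of the matrix of multiplication by `a`; hence
  `Tr_{B/S} (φ a) = ψ (Tr_{A/R} a)`.
* `det_traceMatrix_map_of_basis`: the Gram determinants agree.
-/
import Mathlib

set_option autoImplicit false

namespace Fermat.Agent.S18.H82

section Semilinear

variable {R S A B : Type*} [CommRing R] [CommRing S] [CommRing A] [CommRing B]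
  [Algebra R A] [Algebra S B] (ψ : R →+* S) (φ : A →+* B)
  (hφ : ∀ r : R, φ (algebraMap R A r) = algebraMap S B (ψ r))
  {ι : Type*} [Fintype ι] [DecidableEq ι]

include hφ

/-- `φ` is `ψ`-semilinear. -/
theorem map_smul_of_semilinear (r : R) (a : A) : φ (r • a) = ψ r • φ a := by
  rw [Algebra.smul_def, map_mul, hφ, Algebra.smul_def]

omit [DecidableEq ι] in
theorem map_sum_smul_of_semilinear (r : ι → R) (θ : ι → A) :
    φ (∑ i, r i • θ i) = ∑ i, ψ (r i) • φ (θ i) := by
  rw [map_sum]
  exact Finset.sum_congr rfl fun i _ => map_smul_of_semilinear ψ φ hφ _ _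

/-- Coordinates are transported by a semilinear map matching two bases. -/
theorem repr_map_of_basis (b : Module.Basis ι R A) (b' : Module.Basis ι S B)
    (hb : ∀ i, φ (b i) = b' i) (a : A) (i : ι) :
    b'.repr (φ a) i = ψ (b.repr a i) := by
  have h1 : φ a = ∑ j, ψ (b.repr a j) • b' j := by
    conv_lhs => rw [← b.sum_repr a]
    rw [map_sum_smul_of_semilinear ψ φ hφ]
    exact Finset.sum_congr rfl fun j _ => by rw [hb]
  rw [h1, map_sum, Finsupp.finsetSum_apply]
  simp only [map_smul, Module.Basis.repr_self, Finsupp.smul_apply, Finsupp.single_apply,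
    smul_eq_mul, mul_ite, mul_one, mul_zero, Finset.sum_ite_eq', Finset.mem_univ, if_true]

/-- The matrix of multiplication by `φ a` is the image of the matrix of multiplication
by `a`. -/
theorem leftMulMatrix_map_of_basis (b : Module.Basis ι R A) (b' : Module.Basis ι S B)
    (hb : ∀ i, φ (b i) = b' i) (a : A) :
    Algebra.leftMulMatrix b' (φ a) = (Algebra.leftMulMatrix b a).map ψ := by
  ext i j
  rw [Matrix.map_apply, Algebra.leftMulMatrix_eq_repr_mul, Algebra.leftMulMatrix_eq_repr_mul,
    ← hb j, ← map_mul, repr_map_of_basis ψ φ hφ b b' hb]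

/-- **Trace transfer**: `Tr_{B/S} (φ a) = ψ (Tr_{A/R} a)` when `φ` maps an `R`-basis of `A` to an
`S`-basis of `B`. -/
theorem trace_map_of_basis (b : Module.Basis ι R A) (b' : Module.Basis ι S B)
    (hb : ∀ i, φ (b i) = b' i) (a : A) :
    Algebra.trace S B (φ a) = ψ (Algebra.trace R A a) := by
  rw [Algebra.trace_eq_matrix_trace b', Algebra.trace_eq_matrix_trace b,
    leftMulMatrix_map_of_basis ψ φ hφ b b' hb, Matrix.trace, Matrix.trace, map_sum]
  rfl

/-- **Gram determinant transfer**. -/
theorem det_traceMatrix_map_of_basis (b : Module.Basis ι R A) (b' : Module.Basis ι S B)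
    (hb : ∀ i, φ (b i) = b' i) {κ : Type*} [Fintype κ] [DecidableEq κ] (θ : κ → A) :
    (Matrix.of fun i j => Algebra.trace S B (φ (θ i) * φ (θ j))).det =
      ψ ((Matrix.of fun i j => Algebra.trace R A (θ i * θ j)).det) := by
  rw [RingHom.map_det]
  congr 1
  ext i j
  rw [Matrix.of_apply, RingHom.mapMatrix_apply, Matrix.map_apply, Matrix.of_apply, ← map_mul,
    trace_map_of_basis ψ φ hφ b b' hb]

omit [DecidableEq ι] in
/-- **Descent of a basis**: if `φ` and `ψ` are injective, `φ ∘ θ` is an `S`-basis of `B` and every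
element of `φ A` has its coordinates in `ψ R`, then `θ` is an `R`-basis of `A`. -/
theorem exists_basis_of_repr_mem_range (hψ : Function.Injective ψ) (hφi : Function.Injective φ)
    (θ : ι → A) (b' : Module.Basis ι S B) (hb : ∀ i, b' i = φ (θ i))
    (hcoord : ∀ (a : A) (i : ι), ∃ r : R, ψ r = b'.repr (φ a) i) :
    ∃ b : Module.Basis ι R A, ∀ i, b i = θ i := by
  have hli : LinearIndependent R θ := by
    rw [Fintype.linearIndependent_iff]
    intro r hr i
    have h1 := congrArg φ hr
    rw [map_sum_smul_of_semilinear ψ φ hφ, map_zero] at h1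
    have h2 : ∑ j, ψ (r j) • b' j = 0 := by
      rw [← h1]; exact Finset.sum_congr rfl fun j _ => by rw [hb]
    have h3 := Fintype.linearIndependent_iff.1 b'.linearIndependent _ h2 i
    exact hψ (by rw [h3, map_zero])
  have hsp : ⊤ ≤ Submodule.span R (Set.range θ) := by
    rintro a -
    choose r hr using hcoord a
    have h1 : a = ∑ i, r i • θ i := by
      apply hφi
      rw [map_sum_smul_of_semilinear ψ φ hφ]
      conv_lhs => rw [← b'.sum_repr (φ a)]
      exact Finset.sum_congr rfl fun i _ => by rw [hr, hb]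
    rw [h1]
    exact Submodule.sum_mem _ fun i _ => Submodule.smul_mem _ _ (Submodule.subset_span ⟨i, rfl⟩)
  exact ⟨Module.Basis.mk hli hsp, fun i => by rw [Module.Basis.mk_apply]⟩

end Semilinear

end Fermat.Agent.S18.H82
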